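import Mathlib
import Fermat.Prelude.Def_FLTPrelim_Ramification
import Fermat.Prelude.Def_EllipticCurve_FrobeniusTrace
import Fermat.Agent.S05.Inertia

/-!
# S31: roots of unity of order prime to the residue characteristic

For a valuation subring `A` of a field `L` and `M : ℕ` which is a unit of `A`:

* `rootOfUnity_eq_of_sub_mem`: two `M`-th roots of unity which are congruent modulo the maximal
  ideal of `A` are equal;
* `frob_rootOfUnity`: a Frobenius `τ` at `A` (residue cardinality `ℓ`) maps an `M`-th root of unity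
  `ζ` to `ζ ^ ℓ`;
* `inertia_rootOfUnity`: the inertia subgroup fixes the `M`-th roots of unity;
* `natCast_pow_not_mem_nonunits`: `pⁿ` is a unit at a valuation subring of `ℚ̄` over `q ≠ p`.
-/

set_option autoImplicit false

namespace Fermat.Agent.S31

section general

variable {L : Type*} [Field L]

/-- a root of unity has valuation at most one -/
theorem rootOfUnity_mem (A : ValuationSubring L) {M : ℕ} (hM0 : M ≠ 0) {x : L}
    (hx : x ^ M = 1) : x ∈ A := by
  rcases A.mem_or_inv_mem x with h | h
  · exact h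
  · have hx0 : x ≠ 0 := by
      rintro rfl
      rw [zero_pow hM0] at hx
      exact zero_ne_one hx
    have h1 : x = x⁻¹ ^ (M - 1) := by
      have : x * x ^ (M - 1) = 1 := by
        rw [← pow_succ', Nat.sub_add_cancel (Nat.pos_of_ne_zero hM0), hx]
      rw [inv_pow]
      exact eq_inv_of_mul_eq_one_left this
    rw [h1]
    exact pow_mem h _

/-- Two `M`-th roots of unity which are congruent modulo the maximal ideal are equal, if `M` is
a unit of the valuation ring. -/
theorem rootOfUnity_eq_of_sub_mem (A : ValuationSubring L) {M : ℕ}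
    (hM : (M : L) ∉ A.nonunits) (hM0 : M ≠ 0) {x y : L} (hx : x ^ M = 1) (hy : y ^ M = 1)
    (hxy : x - y ∈ A.nonunits) : x = y := by
  by_contra hne
  have hy0 : y ≠ 0 := by
    rintro rfl
    rw [zero_pow hM0] at hy
    exact zero_ne_one hy
  set η : L := x * y⁻¹ with hη
  have hηM : η ^ M = 1 := by
    rw [hη, mul_pow, inv_pow, hx, hy, inv_one, mul_one]
  have hη1 : η ≠ 1 := by
    intro h
    apply hne
    have := congrArg (· * y) h
    simpa [hη, hy0] using this
  have hηA : η ∈ A := rootOfUnity_mem A hM0 hηM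
  have hyinvA : y⁻¹ ∈ A := by
    apply rootOfUnity_mem A hM0
    rw [inv_pow, hy, inv_one]
  -- `η - 1` is in the maximal ideal
  have hsub : η - 1 ∈ A.nonunits := by
    have e : η - 1 = y⁻¹ * (x - y) := by
      rw [hη]; field_simp
    rw [e, A.mem_nonunits_iff, map_mul]
    have h1 : A.valuation y⁻¹ ≤ 1 := (A.valuation_le_one_iff _).mpr hyinvA
    have h2 : A.valuation (x - y) < 1 := A.mem_nonunits_iff.mp hxy
    calc A.valuation y⁻¹ * A.valuation (x - y) ≤ 1 * A.valuation (x - y) :=
          mul_le_mul_left h1 _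
      _ = A.valuation (x - y) := one_mul _
      _ < 1 := h2
  -- the geometric sum vanishes
  have hgeom : ∑ i ∈ Finset.range M, η ^ i = 0 := by
    have := mul_geom_sum η M
    rw [hηM, sub_self] at this
    rcases mul_eq_zero.mp this with h | h
    · exact absurd (sub_eq_zero.mp h) hη1
    · exact h
  -- hence `M` is in the maximal ideal
  apply hM
  have hMsum : (M : L) = ∑ i ∈ Finset.range M, (1 - η ^ i) := by
    rw [Finset.sum_sub_distrib, hgeom, sub_zero, Finset.sum_const, Finset.card_range,
      nsmul_eq_mul, mul_one]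
  rw [hMsum, A.mem_nonunits_iff]
  apply Valuation.map_sum_lt _ one_ne_zero
  intro i _
  have e : 1 - η ^ i = (1 - η) * ∑ j ∈ Finset.range i, η ^ j := (mul_neg_geom_sum η i).symm
  rw [e, map_mul]
  have h1 : A.valuation (1 - η) < 1 := by
    have : 1 - η = -(η - 1) := by ring
    rw [this, Valuation.map_neg]
    exact A.mem_nonunits_iff.mp hsub
  have h2 : A.valuation (∑ j ∈ Finset.range i, η ^ j) ≤ 1 := by
    apply Valuation.map_sum_le
    intro j _
    exact (A.valuation_le_one_iff _).mpr (pow_mem hηA j)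
  calc A.valuation (1 - η) * A.valuation (∑ j ∈ Finset.range i, η ^ j)
      ≤ A.valuation (1 - η) * 1 := mul_le_mul_right h2 _
    _ = A.valuation (1 - η) := mul_one _
    _ < 1 := h1

variable {K : Type*} [Field K] [Algebra K L]

/-- A Frobenius at `A` raises the roots of unity of order prime to the residue characteristic to
the `ℓ`-th power. -/
theorem frob_rootOfUnity (A : ValuationSubring L) {M : ℕ} (hM : (M : L) ∉ A.nonunits)
    (hM0 : M ≠ 0) {τ : L ≃ₐ[K] L} {ℓ : ℕ} (hτ : A.IsFrobeniusAt τ ℓ) {ζ : L} (hζ : ζ ^ M = 1) :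
    τ ζ = ζ ^ ℓ := by
  have hζA : ζ ∈ A := rootOfUnity_mem A hM0 hζ
  apply rootOfUnity_eq_of_sub_mem A hM hM0
  · rw [← map_pow, hζ, map_one]
  · rw [← pow_mul, mul_comm, pow_mul, hζ, one_pow]
  · have hmem := hτ.mem_decompositionSubgroup
    set z : A := ⟨ζ, hζA⟩ with hz
    have e2 := hτ.smul_residue_eq (IsLocalRing.residue A z)
    rw [← IsLocalRing.ResidueField.residue_smul, ← map_pow, ← sub_eq_zero, ← map_sub,
      IsLocalRing.residue_eq_zero_iff, ← ValuationSubring.coe_mem_nonunits_iff] at e2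
    exact e2

/-- The inertia subgroup fixes the roots of unity of order prime to the residue characteristic. -/
theorem inertia_rootOfUnity (A : ValuationSubring L) {M : ℕ} (hM : (M : L) ∉ A.nonunits)
    (hM0 : M ≠ 0) {σ : L ≃ₐ[K] L} (hσ : σ ∈ A.inertiaSubgroupIn K) {ζ : L} (hζ : ζ ^ M = 1) :
    σ ζ = ζ := by
  have hζA : ζ ∈ A := rootOfUnity_mem A hM0 hζ
  apply rootOfUnity_eq_of_sub_mem A hM hM0
  · rw [← map_pow, hζ, map_one]
  · exact hζ
  · exact Fermat.Agent.S05.inertia_apply_sub_mem_nonunits hσ hζA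

/-- the powers of a Frobenius on roots of unity -/
theorem frob_pow_rootOfUnity (A : ValuationSubring L) {M : ℕ} (hM : (M : L) ∉ A.nonunits)
    (hM0 : M ≠ 0) {τ : L ≃ₐ[K] L} {ℓ : ℕ} (hτ : A.IsFrobeniusAt τ ℓ) {ζ : L} (hζ : ζ ^ M = 1)
    (m : ℕ) : (τ ^ m) ζ = ζ ^ (ℓ ^ m) := by
  induction m with
  | zero => simp
  | succ m ih =>
    rw [pow_succ', AlgEquiv.mul_apply, ih, map_pow, frob_rootOfUnity A hM hM0 hτ hζ, ← pow_mul,
      pow_succ']

end general

/-- `pⁿ` is a unit at a valuation subring over a prime `q ≠ p`. -/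
theorem natCast_pow_not_mem_nonunits {L : Type*} [Field L] (A : ValuationSubring L) {p q : ℕ}
    (hp : p.Prime) (hq : q.Prime) (hqp : q ≠ p) (hA : A.LiesOverPrime q) (n : ℕ) :
    ((p ^ n : ℕ) : L) ∉ A.nonunits := by
  intro h
  have hcop : Nat.Coprime (p ^ n) q :=
    Nat.Coprime.pow_left n ((Nat.coprime_primes hp hq).mpr (Ne.symm hqp))
  obtain ⟨u, v, huv⟩ := Nat.Coprime.isCoprime hcop
  have h1 : ((u : L) * ((p ^ n : ℕ) : L) + (v : L) * (q : L)) = 1 := by
    have := congrArg (fun z : ℤ => (z : L)) huv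
    simpa using this
  have hu : (u : L) ∈ A := intCast_mem A u
  have hv : (v : L) ∈ A := intCast_mem A v
  have h2 : A.valuation ((u : L) * ((p ^ n : ℕ) : L) + (v : L) * (q : L)) < 1 := by
    apply Valuation.map_add_lt
    · rw [map_mul]
      calc A.valuation (u : L) * A.valuation ((p ^ n : ℕ) : L)
          ≤ 1 * A.valuation ((p ^ n : ℕ) : L) :=
            mul_le_mul_left ((A.valuation_le_one_iff _).mpr hu) _
        _ = A.valuation ((p ^ n : ℕ) : L) := one_mul _
        _ < 1 := A.mem_nonunits_iff.mp h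
    · rw [map_mul]
      calc A.valuation (v : L) * A.valuation (q : L)
          ≤ 1 * A.valuation (q : L) :=
            mul_le_mul_left ((A.valuation_le_one_iff _).mpr hv) _
        _ = A.valuation (q : L) := one_mul _
        _ < 1 := A.mem_nonunits_iff.mp hA
  rw [h1, map_one] at h2
  exact lt_irrefl _ h2

end Fermat.Agent.S31
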