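import Mathlib
import Fermat.Prelude.Def_CuspForm_HeckeGaloisRepDatum
import Fermat.Prelude.Def_CuspForm_HeckeEvalForms
import Fermat.Agent.ES.PackageInf
import Fermat.Agent.Cheb.Plan

/-!
# S31: interface (definitions only)

S31 (a Hecke–Galois datum of level `N` away from `S` is unramified outside `S`) is reduced in
`Fermat/Agent/S31/Reduction.lean` to

* `Fermat.Agent.Cheb.WeakChebotarev` (item 70), and
* `ESPkgFaith N p`: the `p`-adic Eichler–Shimura package `ES.ESDataInf N p J` together with the
  characteristic-zero faithfulness clause `ESFaith N p J`.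

`ESFaithOn N p Sg J`: for every `k` there is `n` such that every Hecke polynomial `t` in the
variables `Sg` which kills `J[pⁿ]` acts on the cusp forms of weight 2 and level `N` as `pᵏ` times a
Hecke polynomial in the variables `Sg`.
(For `J = J₀(N)(ℚ̄)`: a Hecke-equivariant embedding of `Hom_par(Γ₀(N), ℤ) / pⁿ` in `J[pⁿ]`, the
faithfulness of the Hecke algebra on `Hom_par(Γ₀(N), ℤ)` (S21) and Artin–Rees give it.)
-/

set_option autoImplicit false

namespace Fermat.Agent.S31

open ModularCurve Fermat.Agent.ES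

/-- The Lucas sequence `s₀ = 2`, `s₁ = a`, `s_{j+2} = a s_{j+1} − d s_j`
(so `s_j = αʲ + βʲ` when `X² − aX + d = (X − α)(X − β)`). -/
def lucasS {R : Type*} [CommRing R] (a d : R) : ℕ → R
  | 0 => 2
  | 1 => a
  | (j + 2) => a * lucasS a d (j + 1) - d * lucasS a d j

/-- the Hecke variables at the primes outside `S` -/
def outsideVars (S : Set ℕ) : Set Nat.Primes := {ℓ | (ℓ : ℕ) ∉ S}

/-- Characteristic-zero faithfulness of the Hecke polynomials in the variables `Sg` on the
`p`-power torsion of `J`. -/
def ESFaithOn (N p : ℕ) [NeZero N] (Sg : Set Nat.Primes) (J : Type) [AddCommGroup J]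
    [Module HeckeAlg J] : Prop :=
  ∀ k : ℕ, ∃ n : ℕ, ∀ t ∈ MvPolynomial.supported ℤ Sg,
    (∀ x : J, p ^ n • x = 0 → t • x = 0) →
      ∃ s ∈ MvPolynomial.supported ℤ Sg,
        CuspForm.heckeEvalForms N 2 t = (p : ℤ) ^ k • CuspForm.heckeEvalForms N 2 s

/-- Characteristic-zero faithfulness, for every set of good Hecke variables. -/
def ESFaith (N p : ℕ) [NeZero N] (J : Type) [AddCommGroup J] [Module HeckeAlg J] : Prop :=
  ∀ Sg : Set Nat.Primes, Sg ⊆ goodPrimes N p → ESFaithOn N p Sg J

/-- The package consumed by S31: the `p`-adic Eichler–Shimura data plus faithfulness. -/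
def ESPkgFaith (N p : ℕ) [NeZero N] : Prop :=
  ∃ (J : Type) (_ : AddCommGroup J) (_ : Module HeckeAlg J) (_ : DistribMulAction GQ J),
    ESDataInf N p J ∧ ESFaith N p J

end Fermat.Agent.S31
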