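import Mathlib
import Fermat.Agent.S31.Plan

/-!
# S31: the Lucas sequence

* `lucasS_map`, `lucasS_mem_subalgebra`: functoriality;
* `lucas_smul`: if `τ² − a τ + d = 0` on a `τ`-stable part of a module then
  `τᵐ + dᵐ τ⁻ᵐ = s_m(a, d)` there;
* `trace_pow_eq_lucasS`: if the characteristic polynomial of an endomorphism `f` of a free module
  of rank 2 is `X² − aX + d` then `tr (fᵐ) = s_m(a, d)`.
-/

set_option autoImplicit false

namespace Fermat.Agent.S31

open Polynomial

section basic

variable {R : Type*} [CommRing R]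

@[simp] theorem lucasS_zero (a d : R) : lucasS a d 0 = 2 := by
  rw [lucasS]

@[simp] theorem lucasS_one (a d : R) : lucasS a d 1 = a := by
  rw [lucasS]

theorem lucasS_add_two (a d : R) (j : ℕ) :
    lucasS a d (j + 2) = a * lucasS a d (j + 1) - d * lucasS a d j := by
  rw [lucasS]

theorem lucasS_map {R' : Type*} [CommRing R'] (f : R →+* R') (a d : R) (m : ℕ) :
    f (lucasS a d m) = lucasS (f a) (f d) m := by
  induction m using Nat.twoStepInduction with
  | zero => rw [lucasS_zero, lucasS_zero, map_ofNat]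
  | one => rw [lucasS_one, lucasS_one]
  | more j h0 h1 =>
    rw [lucasS_add_two, lucasS_add_two, map_sub, map_mul, map_mul, h0, h1]

theorem lucasS_mem_subalgebra {R₀ : Type*} [CommRing R₀] [Algebra R₀ R] (B : Subalgebra R₀ R)
    {a d : R} (ha : a ∈ B) (hd : d ∈ B) (m : ℕ) : lucasS a d m ∈ B := by
  induction m using Nat.twoStepInduction with
  | zero =>
    rw [lucasS_zero]
    exact ofNat_mem B 2
  | one => rw [lucasS_one]; exact ha
  | more j h0 h1 =>
    rw [lucasS_add_two]
    exact sub_mem (mul_mem ha h1) (mul_mem hd h0)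

end basic

/-- The operator form of the Lucas recursion: if `τ² − a τ + d = 0` on a `G`-stable part `P` of
the module `J`, then `τᵐ + dᵐ τ⁻ᵐ = s_m(a, d)` on `P`. No commutation of `a` with `τ` is used. -/
theorem lucas_smul {G R J : Type*} [Group G] [CommRing R] [AddCommGroup J] [Module R J]
    [DistribMulAction G J] (τ : G) (a d : R) (P : J → Prop)
    (hP : ∀ (g : G) (x : J), P x → P (g • x))
    (hES : ∀ y : J, P y → τ • τ • y - a • (τ • y) + d • y = 0) (x : J) (hx : P x) (m : ℕ) :
    (τ ^ m) • x + d ^ m • ((τ⁻¹) ^ m • x) = lucasS a d m • x := by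
  induction m using Nat.twoStepInduction with
  | zero =>
    rw [pow_zero, pow_zero, pow_zero, one_smul, one_smul, lucasS_zero, two_smul]

  | one =>
    rw [pow_one, pow_one, pow_one, lucasS_one]
    have h := hES (τ⁻¹ • x) (hP _ _ hx)
    rw [smul_inv_smul] at h
    have h2 : τ • x + d • τ⁻¹ • x - a • x = 0 := by
      rw [← h]; abel
    exact sub_eq_zero.mp h2
  | more j h0 h1 =>
    -- the two instances of the relation
    have e1 := hES ((τ ^ j) • x) (hP _ _ hx)
    have e2 := hES ((τ⁻¹) ^ (j + 2) • x) (hP _ _ hx)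
    have f1 : τ • τ • (τ ^ j) • x = (τ ^ (j + 2)) • x := by
      rw [smul_smul, smul_smul, pow_succ', pow_succ', mul_assoc]
    have f2 : τ • (τ ^ j) • x = (τ ^ (j + 1)) • x := by
      rw [smul_smul, pow_succ']
    have f3 : τ • (τ⁻¹) ^ (j + 2) • x = (τ⁻¹) ^ (j + 1) • x := by
      rw [pow_succ' τ⁻¹ (j + 1), mul_smul, smul_inv_smul]
    have f4 : τ • (τ⁻¹) ^ (j + 1) • x = (τ⁻¹) ^ j • x := by
      rw [pow_succ' τ⁻¹ j, mul_smul, smul_inv_smul]
    rw [f1, f2] at e1
    rw [f3, f4] at e2
    rw [lucasS_add_two, sub_smul, mul_smul, mul_smul, ← h1, ← h0]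
    have g1 : a • (τ ^ (j + 1)) • x = (τ ^ (j + 2)) • x + d • (τ ^ j) • x := by
      have : (τ ^ (j + 2)) • x + d • (τ ^ j) • x - a • (τ ^ (j + 1)) • x = 0 := by
        rw [← e1]; abel
      exact (sub_eq_zero.mp this).symm
    have g2 : a • (τ⁻¹) ^ (j + 1) • x = (τ⁻¹) ^ j • x + d • (τ⁻¹) ^ (j + 2) • x := by
      have : (τ⁻¹) ^ j • x + d • (τ⁻¹) ^ (j + 2) • x - a • (τ⁻¹) ^ (j + 1) • x = 0 := by
        rw [← e2]; abel
      exact (sub_eq_zero.mp this).symm
    rw [smul_add, smul_add, smul_comm a (d ^ (j + 1)), g1, g2, smul_add, smul_smul, smul_smul,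
      show d ^ (j + 1) * d = d ^ (j + 2) from (pow_succ d (j + 1)).symm,
      show d * d ^ j = d ^ (j + 1) from (pow_succ' d j).symm]
    abel

section trace

variable {A V : Type*} [CommRing A] [Nontrivial A] [AddCommGroup V] [Module A V]
  [Module.Free A V] [Module.Finite A V]

/-- the trace of an endomorphism of a free module of rank 2 with characteristic polynomial
`X² − aX + d` is `a` -/
theorem trace_of_charpoly (hV : Module.finrank A V = 2) (f : Module.End A V) (a d : A)
    (h : LinearMap.charpoly f = X ^ 2 - C a * X + C d) : LinearMap.trace A V f = a := by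
  classical
  let bas := Module.Free.chooseBasis A V
  have hcard : Fintype.card (Module.Free.ChooseBasisIndex A V) = 2 := by
    rw [← Module.finrank_eq_card_chooseBasisIndex, hV]
  have : Nonempty (Module.Free.ChooseBasisIndex A V) := by
    rw [← Fintype.card_pos_iff, hcard]; norm_num
  rw [LinearMap.trace_eq_matrix_trace A bas f, Matrix.trace_eq_neg_charpoly_coeff, hcard,
    LinearMap.charpoly_toMatrix, h]
  simp [Polynomial.coeff_C]

omit [Nontrivial A] in
/-- Cayley–Hamilton in rank 2 -/
theorem sq_of_charpoly (f : Module.End A V) (a d : A)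
    (h : LinearMap.charpoly f = X ^ 2 - C a * X + C d) : f ^ 2 = a • f - d • 1 := by
  have h1 := LinearMap.aeval_self_charpoly f
  rw [h] at h1
  simp only [map_add, map_sub, map_mul, map_pow, aeval_X, aeval_C,
    Algebra.algebraMap_eq_smul_one, smul_mul_assoc, one_mul] at h1
  have : f ^ 2 - (a • f - d • 1) = 0 := by
    rw [← h1]; abel
  exact sub_eq_zero.mp this

/-- `tr (fᵐ) = s_m(a, d)` when the characteristic polynomial of `f` is `X² − aX + d` -/
theorem trace_pow_eq_lucasS (hV : Module.finrank A V = 2) (f : Module.End A V) (a d : A)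
    (h : LinearMap.charpoly f = X ^ 2 - C a * X + C d) (m : ℕ) :
    LinearMap.trace A V (f ^ m) = lucasS a d m := by
  induction m using Nat.twoStepInduction with
  | zero =>
    rw [pow_zero, LinearMap.trace_one, hV, lucasS_zero]
    norm_num
  | one =>
    rw [pow_one, lucasS_one]
    exact trace_of_charpoly hV f a d h
  | more j h0 h1 =>
    have hsq := sq_of_charpoly f a d h
    have : f ^ (j + 2) = a • f ^ (j + 1) - d • f ^ j := by
      rw [pow_add, hsq, mul_sub, mul_smul_comm, mul_smul_comm, mul_one, pow_succ f j]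
    rw [this, map_sub, map_smul, map_smul, h0, h1, lucasS_add_two, smul_eq_mul, smul_eq_mul]

end trace

end Fermat.Agent.S31
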