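import Mathlib
import Fermat.Agent.S31.Plan
import Fermat.Agent.S31.Lucas

/-!
# S31: auxiliary lemmas for the reduction

* `evalS`: evaluation of Hecke polynomials in `heckeAlgebra N 2 S`, and its comparison with the
  prelude's `CuspForm.heckeEvalForms` (values in `heckeAlgebra N 2 ∅`);
* `exists_common_field`: a common field of definition of `J[pⁿ]`;
* `exists_galois_hull`: three finite extensions lie in a finite Galois extension;
* `trace_sub_mem`: endomorphisms congruent modulo `I` have traces congruent modulo `I`;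
* `nsmul_eq_of_modEq`.
-/

set_option autoImplicit false

namespace Fermat.Agent.S31

open ModularCurve Fermat.Agent.ES

section evalS

variable (N : ℕ) [NeZero N] (S : Set ℕ)

open Classical in
/-- the value of the Hecke variable `X_ℓ` in `heckeAlgebra N 2 S` (`T_ℓ` if `ℓ ∤ N`, `ℓ ∉ S`) -/
noncomputable def genS (ℓ : Nat.Primes) : CuspForm.heckeAlgebra N 2 S :=
  if h : ¬ (ℓ : ℕ) ∣ N ∧ (ℓ : ℕ) ∉ S then CuspForm.heckeAlgebra.T ℓ.2 h.1 h.2 else 0

/-- evaluation of Hecke polynomials in `heckeAlgebra N 2 S` -/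
noncomputable def evalS : HeckeAlg →ₐ[ℤ] CuspForm.heckeAlgebra N 2 S :=
  MvPolynomial.aeval (genS N S)

variable {N S}

theorem evalS_heckeGen {ℓ : ℕ} (hℓ : ℓ.Prime) (hℓN : ¬ ℓ ∣ N) (hℓS : ℓ ∉ S) :
    evalS N S (heckeGen ⟨ℓ, hℓ⟩) = CuspForm.heckeAlgebra.T hℓ hℓN hℓS := by
  refine (MvPolynomial.aeval_X (genS N S) (⟨ℓ, hℓ⟩ : Nat.Primes)).trans ?_
  unfold genS
  exact dif_pos ⟨hℓN, hℓS⟩

/-- on polynomials in the variables `ℓ ∤ N`, `ℓ ∉ S`, the two evaluations give the same operator -/
theorem coe_evalS_eq {Sg : Set Nat.Primes} (hSg : ∀ ℓ ∈ Sg, ¬ (ℓ : ℕ) ∣ N ∧ (ℓ : ℕ) ∉ S)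
    {t : HeckeAlg} (ht : t ∈ MvPolynomial.supported ℤ Sg) :
    ((evalS N S t : CuspForm.heckeAlgebra N 2 S) :
        Module.End ℂ (CuspForm (CongruenceSubgroup.Gamma0 N) 2)) =
      ((CuspForm.heckeEvalForms N 2 t : CuspForm.heckeAlgebra N 2 ∅) :
        Module.End ℂ (CuspForm (CongruenceSubgroup.Gamma0 N) 2)) := by
  set f₁ : HeckeAlg →+* CuspForm.heckeAlgebra N 2 ∅ :=
    ((Subalgebra.inclusion (CuspForm.heckeAlgebra_mono (Set.empty_subset S))).comp
      (evalS N S)).toRingHom with hf₁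
  set f₂ : HeckeAlg →+* CuspForm.heckeAlgebra N 2 ∅ := CuspForm.heckeEvalForms N 2 with hf₂
  have key : f₁ t = f₂ t := by
    apply MvPolynomial.hom_congr_vars
    · exact RingHom.ext_int _ _
    · intro i hi _
      have hiSg : i ∈ Sg := (MvPolynomial.mem_supported.mp ht) (Finset.mem_coe.mpr hi)
      obtain ⟨h1, h2⟩ := hSg i hiSg
      have e1 : evalS N S (MvPolynomial.X i) = CuspForm.heckeAlgebra.T i.2 h1 h2 :=
        evalS_heckeGen i.2 h1 h2
      have e2 : CuspForm.heckeEvalForms N 2 (MvPolynomial.X i) =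
          CuspForm.heckeAlgebra.T i.2 h1 (Set.notMem_empty _) :=
        CuspForm.heckeEvalForms_heckeGen_of_not_dvd (N := N) (k := 2) (ℓ := i) h1
      show Subalgebra.inclusion (CuspForm.heckeAlgebra_mono (Set.empty_subset S))
        (evalS N S (MvPolynomial.X i)) = CuspForm.heckeEvalForms N 2 (MvPolynomial.X i)
      rw [e1, e2]
      rfl
    · rfl
  have := congrArg (fun x : CuspForm.heckeAlgebra N 2 ∅ =>
    (x : Module.End ℂ (CuspForm (CongruenceSubgroup.Gamma0 N) 2))) key
  exact this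

end evalS

section fields

/-- a common field of definition for `J[pⁿ]` -/
theorem exists_common_field {N p : ℕ} {J : Type} [AddCommGroup J] [Module HeckeAlg J]
    [DistribMulAction GQ J] (hJ : ESDataInf N p J) (n : ℕ) :
    ∃ E : IntermediateField ℚ (AlgebraicClosure ℚ), FiniteDimensional ℚ E ∧
      ∀ σ : GQ, (∀ a ∈ E, σ a = a) → ∀ x : J, p ^ n • x = 0 → σ • x = x := by
  classical
  have hfin := hJ.finite n
  have hex : ∀ x : J, ∃ E : IntermediateField ℚ (AlgebraicClosure ℚ),
      p ^ n • x = 0 → (FiniteDimensional ℚ E ∧ ∀ σ : GQ, (∀ a ∈ E, σ a = a) → σ • x = x) := by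
    intro x
    by_cases hx : p ^ n • x = 0
    · obtain ⟨E, h1, h2⟩ := hJ.finite_level x ⟨n, hx⟩
      exact ⟨E, fun _ => ⟨h1, h2⟩⟩
    · exact ⟨⊥, fun h => absurd h hx⟩
  choose Ef hEf using hex
  refine ⟨⨆ x ∈ hfin.toFinset, Ef x, ?_, ?_⟩
  · apply IntermediateField.finiteDimensional_iSup_of_finset'
    intro x hx
    exact (hEf x ((Set.Finite.mem_toFinset hfin).mp hx)).1
  · intro σ hσ x hx
    apply (hEf x hx).2 σ
    intro a ha
    apply hσ
    have hle : Ef x ≤ ⨆ y ∈ hfin.toFinset, Ef y :=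
      le_iSup₂_of_le x ((Set.Finite.mem_toFinset hfin).mpr hx) le_rfl
    exact hle ha

/-- `ℚ̄ / ℚ` is normal (for the instance of `Algebra ℚ ℚ̄` found by unification) -/
theorem qbar_normal : Normal ℚ (AlgebraicClosure ℚ) := by
  have h1 : @Normal ℚ (AlgebraicClosure ℚ) _ _ (AlgebraicClosure.instAlgebra ℚ) := inferInstance
  convert h1
  exact Subsingleton.elim _ _

/-- three finite extensions of `ℚ` in `ℚ̄` lie in a finite Galois extension -/
theorem exists_galois_hull (E₁ E₂ E₃ : IntermediateField ℚ (AlgebraicClosure ℚ))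
    [FiniteDimensional ℚ E₁] [FiniteDimensional ℚ E₂] [FiniteDimensional ℚ E₃] :
    ∃ F : IntermediateField ℚ (AlgebraicClosure ℚ), FiniteDimensional ℚ F ∧ IsGalois ℚ F ∧
      E₁ ≤ F ∧ E₂ ≤ F ∧ E₃ ≤ F := by
  have hn := qbar_normal
  set K : IntermediateField ℚ (AlgebraicClosure ℚ) := E₁ ⊔ E₂ ⊔ E₃ with hK
  have hKfin : FiniteDimensional ℚ K := inferInstance
  refine ⟨IntermediateField.normalClosure ℚ K (AlgebraicClosure ℚ), inferInstance, ?_, ?_, ?_, ?_⟩
  · have : Normal ℚ (IntermediateField.normalClosure ℚ K (AlgebraicClosure ℚ)) :=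
      normalClosure.normal ℚ K (AlgebraicClosure ℚ)
    exact IsGalois.mk
  · exact le_trans (le_trans le_sup_left le_sup_left) (IntermediateField.le_normalClosure K)
  · exact le_trans (le_trans le_sup_right le_sup_left) (IntermediateField.le_normalClosure K)
  · exact le_trans le_sup_right (IntermediateField.le_normalClosure K)

end fields

section trace

variable {A V : Type*} [CommRing A] [AddCommGroup V] [Module A V]

/-- a linear functional maps `I • ⊤` into `I` -/
theorem functional_mem_of_mem_smul_top (I : Ideal A) (φ : V →ₗ[A] A) {w : V}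
    (hw : w ∈ I • (⊤ : Submodule A V)) : φ w ∈ I := by
  refine Submodule.smul_induction_on (p := fun x => φ x ∈ I) hw ?_ ?_
  · intro a ha v _
    rw [map_smul, smul_eq_mul]
    exact I.mul_mem_right _ ha
  · intro x y hx hy
    rw [map_add]
    exact I.add_mem hx hy

/-- an endomorphism with values in `I • ⊤` has trace in `I` -/
theorem trace_mem_of_forall_mem [Module.Free A V] [Module.Finite A V] (I : Ideal A) (h : Module.End A V)
    (hh : ∀ v : V, h v ∈ I • (⊤ : Submodule A V)) : LinearMap.trace A V h ∈ I := by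
  classical
  let b := Module.Free.chooseBasis A V
  rw [LinearMap.trace_eq_matrix_trace A b h, Matrix.trace]
  refine I.sum_mem fun i _ => ?_
  rw [Matrix.diag_apply, LinearMap.toMatrix_apply]
  exact functional_mem_of_mem_smul_top I (b.coord i) (hh (b i))

/-- a linear map preserves `I • ⊤` -/
theorem map_mem_smul_top (I : Ideal A) (f : Module.End A V) {w : V}
    (hw : w ∈ I • (⊤ : Submodule A V)) : f w ∈ I • (⊤ : Submodule A V) := by
  refine Submodule.smul_induction_on (p := fun x => f x ∈ I • (⊤ : Submodule A V)) hw ?_ ?_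
  · intro a ha v _
    rw [map_smul]
    exact Submodule.smul_mem_smul ha Submodule.mem_top
  · intro x y hx hy
    rw [map_add]
    exact Submodule.add_mem _ hx hy

end trace

/-- congruent multiples agree on `M`-torsion -/
theorem nsmul_eq_of_modEq {J : Type*} [AddCommGroup J] {M a b : ℕ} (hab : a ≡ b [MOD M]) {y : J}
    (hy : M • y = 0) : a • y = b • y := by
  have key : ∀ c : ℕ, c • y = (c % M) • y := by
    intro c
    conv_lhs => rw [← Nat.div_add_mod c M]
    rw [add_smul, mul_comm, mul_smul, hy, smul_zero, zero_add]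
  rw [key a, key b, hab]

end Fermat.Agent.S31
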