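import Mathlib
import Fermat.Agent.S31.Plan
import Fermat.Agent.S31.Lucas
import Fermat.Agent.S31.Cyclo
import Fermat.Agent.S31.Helpers

/-!
# S31: the difference of the two Lucas polynomials kills `J[pⁿ]`

Let `g ∈ G_ℚ`, `σ` in an inertia group at `q ∤ N p`, and suppose that on a field `F` containing a
field of definition of `J[pⁿ]` and `μ_{pⁿ}` one has `g = τᵐ`, `σ g = τ'ᵐ'` for Frobenius elements
`τ`, `τ'` at `ℓ, ℓ' ∤ N p`. Then `s_m(T_ℓ, ℓ) − s_{m'}(T_ℓ', ℓ')` kills `J[pⁿ]`.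
-/

set_option autoImplicit false

namespace Fermat.Agent.S31

open ModularCurve Fermat.Agent.ES

variable {N p : ℕ} {J : Type} [AddCommGroup J] [Module HeckeAlg J] [DistribMulAction GQ J]

omit [Module HeckeAlg J] in
/-- the `pⁿ`-torsion is Galois stable -/
theorem torsion_smul (n : ℕ) (g : GQ) {x : J} (hx : p ^ n • x = 0) : p ^ n • (g • x) = 0 := by
  rw [smul_comm, hx, smul_zero]

/-- `g + ℓᵐ g⁻¹ = s_m(T_ℓ, ℓ)` on `J[pⁿ]` if `g = τᵐ` on a field of definition of `J[pⁿ]`,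
`τ` a Frobenius at `ℓ ∤ N p`. -/
theorem lucas_galois (hJ : ESDataInf N p J) (n : ℕ)
    (F : IntermediateField ℚ (AlgebraicClosure ℚ))
    (hF : ∀ σ : GQ, (∀ a ∈ F, σ a = a) → ∀ x : J, p ^ n • x = 0 → σ • x = x)
    {ℓ : ℕ} (hℓ : ℓ.Prime) (hℓNp : ¬ ℓ ∣ N * p)
    {A : ValuationSubring (AlgebraicClosure ℚ)} (hA : A.LiesOverPrime ℓ)
    {τ : GQ} (hτ : A.IsFrobeniusAt τ ℓ) (m : ℕ) (g : GQ) (hg : ∀ a ∈ F, (τ ^ m) a = g a)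
    {x : J} (hx : p ^ n • x = 0) :
    g • x + (ℓ ^ m) • (g⁻¹ • x) = lucasS (heckeGen ⟨ℓ, hℓ⟩) (ℓ : HeckeAlg) m • x := by
  have hES : ∀ y : J, p ^ n • y = 0 →
      τ • τ • y - heckeGen ⟨ℓ, hℓ⟩ • (τ • y) + (ℓ : HeckeAlg) • y = 0 := by
    intro y hy
    rw [Nat.cast_smul_eq_nsmul]
    exact hJ.frob ℓ hℓ hℓNp A hA τ hτ y ⟨n, hy⟩
  have hL := lucas_smul (G := GQ) τ (heckeGen ⟨ℓ, hℓ⟩) (ℓ : HeckeAlg) (fun y : J => p ^ n • y = 0)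
    (fun g y hy => torsion_smul n g hy) hES x hx m
  -- `u = (τ ^ m)⁻¹ * g` fixes `F`
  set u : GQ := (τ ^ m)⁻¹ * g with hu
  have huF : ∀ a ∈ F, u a = a := by
    intro a ha
    rw [hu, AlgEquiv.mul_apply, ← hg a ha, ← AlgEquiv.mul_apply, inv_mul_cancel, AlgEquiv.one_apply]
  have hux : ∀ y : J, p ^ n • y = 0 → u • y = y := hF u huF
  have e1 : (τ ^ m) • x = g • x := by
    have : g = τ ^ m * u := by rw [hu, mul_inv_cancel_left]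
    rw [this, mul_smul, hux x hx]
  have e2 : (τ⁻¹) ^ m • x = g⁻¹ • x := by
    have : (τ⁻¹) ^ m = u * g⁻¹ := by rw [hu, inv_pow, mul_assoc, mul_inv_cancel, mul_one]
    rw [this, mul_smul, hux _ (torsion_smul n g⁻¹ hx)]
  rw [e1, e2, ← Nat.cast_pow, Nat.cast_smul_eq_nsmul] at hL
  exact hL

/-- the cyclotomic congruence `ℓᵐ ≡ ℓ'ᵐ' mod pⁿ` -/
theorem cyclo_congr (hp : p.Prime) (n : ℕ) {ζ : AlgebraicClosure ℚ} (hζ : IsPrimitiveRoot ζ (p ^ n))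
    (F : IntermediateField ℚ (AlgebraicClosure ℚ)) (hζF : ζ ∈ F)
    {q : ℕ} (hq : q.Prime) (hqp : q ≠ p) {P : ValuationSubring (AlgebraicClosure ℚ)}
    (hP : P.LiesOverPrime q) {σ : GQ} (hσ : σ ∈ P.inertiaSubgroupIn ℚ) (g : GQ)
    {ℓ : ℕ} (hℓ : ℓ.Prime) (hℓp : ℓ ≠ p)
    {A : ValuationSubring (AlgebraicClosure ℚ)} (hA : A.LiesOverPrime ℓ)
    {τ : GQ} (hτ : A.IsFrobeniusAt τ ℓ) (m : ℕ) (hg : ∀ a ∈ F, (τ ^ m) a = g a)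
    {ℓ' : ℕ} (hℓ' : ℓ'.Prime) (hℓ'p : ℓ' ≠ p)
    {A' : ValuationSubring (AlgebraicClosure ℚ)} (hA' : A'.LiesOverPrime ℓ')
    {τ' : GQ} (hτ' : A'.IsFrobeniusAt τ' ℓ') (m' : ℕ) (hg' : ∀ a ∈ F, (τ' ^ m') a = (σ * g) a) :
    ℓ ^ m ≡ ℓ' ^ m' [MOD p ^ n] := by
  have hM0 : p ^ n ≠ 0 := pow_ne_zero n hp.ne_zero
  have hζ1 : ζ ^ (p ^ n) = 1 := hζ.pow_eq_one
  have h1 : (τ ^ m) ζ = ζ ^ (ℓ ^ m) :=
    frob_pow_rootOfUnity A (natCast_pow_not_mem_nonunits A hp hℓ hℓp hA n) hM0 hτ hζ1 m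
  have h2 : (τ' ^ m') ζ = ζ ^ (ℓ' ^ m') :=
    frob_pow_rootOfUnity A' (natCast_pow_not_mem_nonunits A' hp hℓ' hℓ'p hA' n) hM0 hτ' hζ1 m'
  have h3 : g ζ = ζ ^ (ℓ ^ m) := by rw [← hg ζ hζF, h1]
  have h4 : σ (g ζ) = g ζ := by
    apply inertia_rootOfUnity P (natCast_pow_not_mem_nonunits P hp hq hqp hP n) hM0 hσ
    rw [← map_pow, hζ1, map_one]
  have h5 : ζ ^ (ℓ' ^ m') = ζ ^ (ℓ ^ m) := by
    rw [← h2, hg' ζ hζF, AlgEquiv.mul_apply, h4, h3]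
  have h6 := (hζ.isOfFinOrder hM0).pow_eq_pow_iff_modEq.mp h5
  rw [← hζ.eq_orderOf] at h6
  exact h6.symm

/-- **The difference of the two Lucas polynomials kills `J[pⁿ]`.** -/
theorem lucas_diff_kills (hJ : ESDataInf N p J) (hp : p.Prime) (n : ℕ)
    {ζ : AlgebraicClosure ℚ} (hζ : IsPrimitiveRoot ζ (p ^ n))
    (F : IntermediateField ℚ (AlgebraicClosure ℚ)) (hζF : ζ ∈ F)
    (hF : ∀ σ : GQ, (∀ a ∈ F, σ a = a) → ∀ x : J, p ^ n • x = 0 → σ • x = x)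
    {q : ℕ} (hq : q.Prime) (hqNp : ¬ q ∣ N * p) {P : ValuationSubring (AlgebraicClosure ℚ)}
    (hP : P.LiesOverPrime q) {σ : GQ} (hσ : σ ∈ P.inertiaSubgroupIn ℚ) (g : GQ)
    {ℓ : ℕ} (hℓ : ℓ.Prime) (hℓNp : ¬ ℓ ∣ N * p)
    {A : ValuationSubring (AlgebraicClosure ℚ)} (hA : A.LiesOverPrime ℓ)
    {τ : GQ} (hτ : A.IsFrobeniusAt τ ℓ) (m : ℕ) (hg : ∀ a ∈ F, (τ ^ m) a = g a)
    {ℓ' : ℕ} (hℓ' : ℓ'.Prime) (hℓ'Np : ¬ ℓ' ∣ N * p)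
    {A' : ValuationSubring (AlgebraicClosure ℚ)} (hA' : A'.LiesOverPrime ℓ')
    {τ' : GQ} (hτ' : A'.IsFrobeniusAt τ' ℓ') (m' : ℕ) (hg' : ∀ a ∈ F, (τ' ^ m') a = (σ * g) a)
    (x : J) (hx : p ^ n • x = 0) :
    (lucasS (heckeGen ⟨ℓ, hℓ⟩) (ℓ : HeckeAlg) m -
      lucasS (heckeGen ⟨ℓ', hℓ'⟩) (ℓ' : HeckeAlg) m') • x = 0 := by
  have hne : ∀ {r : ℕ}, ¬ r ∣ N * p → r ≠ p := by
    rintro r hr rfl
    exact hr (dvd_mul_left _ _)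
  have hσx : ∀ y : J, p ^ n • y = 0 → σ • y = y := fun y hy =>
    hJ.unram q hq hqNp P hP σ hσ y ⟨n, hy⟩
  have hσinv : ∀ y : J, p ^ n • y = 0 → σ⁻¹ • y = y := fun y hy =>
    hJ.unram q hq hqNp P hP σ⁻¹ (Subgroup.inv_mem _ hσ) y ⟨n, hy⟩
  have h1 := lucas_galois hJ n F hF hℓ hℓNp hA hτ m g hg hx
  have h2 := lucas_galois hJ n F hF hℓ' hℓ'Np hA' hτ' m' (σ * g) hg' hx
  rw [mul_smul, hσx _ (torsion_smul n g hx), mul_inv_rev, mul_smul, hσinv x hx] at h2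
  have hc := cyclo_congr hp n hζ F hζF hq (hne hqNp) hP hσ g hℓ (hne hℓNp) hA hτ m hg
    hℓ' (hne hℓ'Np) hA' hτ' m' hg'
  have h3 : (ℓ ^ m) • (g⁻¹ • x) = (ℓ' ^ m') • (g⁻¹ • x) :=
    nsmul_eq_of_modEq hc (torsion_smul n g⁻¹ hx)
  rw [sub_smul, ← h1, ← h2, h3, sub_self]

end Fermat.Agent.S31
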