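import Mathlib
import Fermat.Prelude.Def_GaloisRep_Adic
import Fermat.Agent.S53.BurnsideRep

/-!
# S31, algebra part 1: the trace-kernel lemma

Let `ρ : GaloisRepAdic A` (`A` a local ring) have absolutely irreducible residual representation.
* `Fermat.Agent.S31.span_range_toMatrix_eq_top`: the matrices of `ρ(g)` span `M₂(A)` over `A`
  (Burnside residually, then Nakayama).
* `Fermat.Agent.S31.rho_eq_one_of_trace`: if `tr ρ(σ g) = tr ρ(g)` for all `g`, then `ρ(σ) = 1`.
-/

set_option autoImplicit false

namespace Fermat.Agent.S31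

open Module IsLocalRing

/-- a matrix with all entries in an ideal `J` lies in `J • ⊤` -/
theorem matrix_mem_smul_top {A : Type} [CommRing A] {n : Type} [Fintype n] [DecidableEq n]
    (J : Ideal A)
    (Y : Matrix n n A) (h : ∀ i j, Y i j ∈ J) :
    Y ∈ J • (⊤ : Submodule A (Matrix n n A)) := by
  rw [Matrix.matrix_eq_sum_single Y]
  refine Submodule.sum_mem _ fun i _ => Submodule.sum_mem _ fun j _ => ?_
  have h1 : Matrix.single i j (Y i j) = (Y i j) • Matrix.single i j (1 : A) := by
    rw [Matrix.smul_single, smul_eq_mul, mul_one]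
  rw [h1]
  exact Submodule.smul_mem_smul (h i j) Submodule.mem_top

variable {A : Type} [CommRing A] [IsLocalRing A]

/-- Burnside + Nakayama: the matrices of `ρ(g)` span all `2 × 2` matrices. -/
theorem span_range_toMatrix_eq_top (ρ : GaloisRepAdic A)
    (habs : ρ.residual.IsAbsolutelyIrreducible) (b : Basis (Fin 2) A ρ.V) :
    Submodule.span A (Set.range fun g : AlgebraicClosure ℚ ≃ₐ[ℚ] AlgebraicClosure ℚ =>
      LinearMap.toMatrix b b (ρ.ρ g)) = ⊤ := by
  classical
  set R : (AlgebraicClosure ℚ ≃ₐ[ℚ] AlgebraicClosure ℚ) → Matrix (Fin 2) (Fin 2) A :=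
    fun g => LinearMap.toMatrix b b (ρ.ρ g) with hR
  set N := Submodule.span A (Set.range R) with hN
  have hfg : (⊤ : Submodule A (Matrix (Fin 2) (Fin 2) A)).FG := Module.Finite.fg_top
  refine top_le_iff.mp (Submodule.le_of_le_smul_of_le_jacobson_bot hfg
    (I := maximalIdeal A) ?_ ?_)
  · rw [IsLocalRing.jacobson_eq_maximalIdeal ⊥ bot_ne_top]
  · intro Y _
    let k := ResidueField A
    let bk : Basis (Fin 2) k (TensorProduct A k ρ.V) := Algebra.TensorProduct.basis k b
    -- the target residual endomorphism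
    let t : TensorProduct A k ρ.V →ₗ[k] TensorProduct A k ρ.V :=
      (LinearMap.toMatrix bk bk).symm (Y.map (algebraMap A k))
    obtain ⟨c, hc0⟩ := Fermat.Agent.S53.Burnside.exists_finsupp_eq ρ.residual habs t
    have hc : (∑ g ∈ c.support, c g • ((ρ.ρ g).baseChange k :
        TensorProduct A k ρ.V →ₗ[k] TensorProduct A k ρ.V)) = t := hc0
    -- lift the coefficients
    have hsurj : Function.Surjective (algebraMap A k) := IsLocalRing.residue_surjective
    choose a ha using hsurj
    let Z : Matrix (Fin 2) (Fin 2) A := ∑ g ∈ c.support, a (c g) • R g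
    have hZN : Z ∈ N := Submodule.sum_mem _ fun g _ =>
      Submodule.smul_mem _ _ (Submodule.subset_span ⟨g, rfl⟩)
    have hres : ∀ g, LinearMap.toMatrix bk bk ((ρ.ρ g).baseChange k) =
        (R g).map (algebraMap A k) :=
      fun g => LinearMap.toMatrix_baseChange k (ρ.ρ g) b b
    have hYmap : Y.map (algebraMap A k) = Z.map (algebraMap A k) := by
      have h1 : LinearMap.toMatrix bk bk t = Y.map (algebraMap A k) :=
        (LinearMap.toMatrix bk bk).apply_symm_apply _
      rw [← h1, ← hc, map_sum]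
      have h2 : Z.map (algebraMap A k) = (algebraMap A k).mapMatrix Z := rfl
      rw [h2, map_sum]
      refine Finset.sum_congr rfl fun g _ => ?_
      rw [map_smul, hres g]
      ext i j
      simp only [Matrix.smul_apply, Matrix.map_apply, RingHom.mapMatrix_apply, smul_eq_mul,
        map_mul, ha]
    have hdiff : Y - Z ∈ maximalIdeal A • (⊤ : Submodule A (Matrix (Fin 2) (Fin 2) A)) := by
      refine matrix_mem_smul_top _ _ fun i j => ?_
      have h3 := congrFun (congrFun hYmap i) j
      simp only [Matrix.map_apply] at h3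
      rw [Matrix.sub_apply, ← IsLocalRing.residue_eq_zero_iff, map_sub, sub_eq_zero]
      exact h3
    have : Y = Z + (Y - Z) := by abel
    rw [this]
    exact Submodule.add_mem_sup hZN hdiff

/-- **Trace-kernel lemma.** If the residual representation is absolutely irreducible and
`tr ρ(σ g) = tr ρ(g)` for all `g`, then `ρ(σ) = 1`. -/
theorem rho_eq_one_of_trace (ρ : GaloisRepAdic A) (habs : ρ.residual.IsAbsolutelyIrreducible)
    (σ : AlgebraicClosure ℚ ≃ₐ[ℚ] AlgebraicClosure ℚ)
    (h : ∀ g : AlgebraicClosure ℚ ≃ₐ[ℚ] AlgebraicClosure ℚ,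
      LinearMap.trace A ρ.V (ρ.ρ (σ * g)) = LinearMap.trace A ρ.V (ρ.ρ g)) :
    ρ.ρ σ = 1 := by
  classical
  let b : Basis (Fin 2) A ρ.V := Module.finBasisOfFinrankEq A ρ.V ρ.finrank_eq
  set X : Matrix (Fin 2) (Fin 2) A := LinearMap.toMatrix b b (ρ.ρ σ) - 1 with hX
  -- the functional `Y ↦ tr (X * Y)`
  let L : Matrix (Fin 2) (Fin 2) A →ₗ[A] A :=
    (Matrix.traceLinearMap (Fin 2) A A).comp (LinearMap.mulLeft A X)
  have hL : ∀ Y, L Y = (X * Y).trace := fun Y => rfl
  have hLrange : ∀ g : AlgebraicClosure ℚ ≃ₐ[ℚ] AlgebraicClosure ℚ,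
      L (LinearMap.toMatrix b b (ρ.ρ g)) = 0 := by
    intro g
    rw [hL, hX, sub_mul, one_mul, Matrix.trace_sub, ← LinearMap.toMatrix_mul, ← map_mul,
      ← LinearMap.trace_eq_matrix_trace, ← LinearMap.trace_eq_matrix_trace, h g, sub_self]
  have hLzero : L = 0 := by
    apply LinearMap.ext_on_range (span_range_toMatrix_eq_top ρ habs b)
    intro g
    rw [hLrange g, LinearMap.zero_apply]
  have hX0 : X = 0 := by
    ext i j
    have h1 : L (Matrix.single j i (1 : A)) = 0 := by rw [hLzero, LinearMap.zero_apply]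
    rw [hL, Matrix.trace_mul_single] at h1
    simpa using h1
  have h2 : LinearMap.toMatrix b b (ρ.ρ σ) = LinearMap.toMatrix b b (1 : Module.End A ρ.V) := by
    rw [LinearMap.toMatrix_one]
    exact sub_eq_zero.mp hX0
  exact (LinearMap.toMatrix b b).injective h2

end Fermat.Agent.S31
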