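import Mathlib
import Fermat.Agent.S31.Plan
import Fermat.Agent.S31.Lucas
import Fermat.Agent.S31.TraceKernel
import Fermat.Agent.S31.Cyclo
import Fermat.Agent.S31.Helpers
import Fermat.Agent.S31.Kills

/-!
# S31 from weak Chebotarev and the faithful `p`-adic Eichler–Shimura package

`unramified_of_pkg`: the statement of S31, under the two hypotheses
`Fermat.Agent.Cheb.WeakChebotarev` and `ESPkgFaith N p`.

Proof. Let `σ` be in an inertia group at `q ∉ S`. By the trace-kernel lemma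
(`rho_eq_one_of_trace`) it suffices to show `tr ρ(σ g) = tr ρ(g)` for all `g`, and as `T` is
separated, to show this modulo `𝔪ᵏ` for all `k`. Choose `n` for `k` by faithfulness and a finite
Galois `F/ℚ` containing a field of definition of `J[pⁿ]`, of `ρ mod 𝔪ᵏ`, and `μ_{pⁿ}`. By weak
Chebotarev `g = τᵐ` and `σ g = τ'ᵐ'` on `F`, with Frobenius elements `τ, τ'` at `ℓ, ℓ' ∉ S`. Then
`D = s_m(T_ℓ, ℓ) − s_{m'}(T_ℓ', ℓ')` kills `J[pⁿ]` (`lucas_diff_kills`), so its image in `T` lies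
in `pᵏ T ⊆ 𝔪ᵏ`; and `tr ρ(g) ≡ tr ρ(τ)ᵐ = s_m(π T_ℓ, ℓ)`, `tr ρ(σ g) ≡ s_{m'}(π T_ℓ', ℓ')`.
-/

set_option autoImplicit false

namespace Fermat.Agent.S31

open ModularCurve Fermat.Agent.ES

section congr

variable {T : Type} [CommRing T] [IsLocalRing T]

/-- if `γ` and `g` agree on a field of definition of `ρ mod 𝔪ᵏ`, the traces of `ρ(γ)` and `ρ(g)`
are congruent modulo `𝔪ᵏ` -/
theorem trace_congr_of_agree (ρ : GaloisRepAdic T) (k : ℕ)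
    (L : IntermediateField ℚ (AlgebraicClosure ℚ))
    (hL : ∀ σ : AlgebraicClosure ℚ ≃ₐ[ℚ] AlgebraicClosure ℚ, (∀ x ∈ L, σ x = x) →
      ∀ v : ρ.V, ρ.ρ σ v - v ∈ (IsLocalRing.maximalIdeal T ^ k) • (⊤ : Submodule T ρ.V))
    (γ g : AlgebraicClosure ℚ ≃ₐ[ℚ] AlgebraicClosure ℚ) (h : ∀ a ∈ L, γ a = g a) :
    LinearMap.trace T ρ.V (ρ.ρ g) - LinearMap.trace T ρ.V (ρ.ρ γ) ∈
      IsLocalRing.maximalIdeal T ^ k := by
  set u : AlgebraicClosure ℚ ≃ₐ[ℚ] AlgebraicClosure ℚ := γ⁻¹ * g with hu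
  have huL : ∀ a ∈ L, u a = a := by
    intro a ha
    rw [hu, AlgEquiv.mul_apply, ← h a ha, ← AlgEquiv.mul_apply, inv_mul_cancel,
      AlgEquiv.one_apply]
  have hg : g = γ * u := by rw [hu, mul_inv_cancel_left]
  have e : ρ.ρ g - ρ.ρ γ = ρ.ρ γ * (ρ.ρ u - 1) := by
    rw [hg, map_mul, mul_sub, mul_one]
  rw [← map_sub, e]
  apply trace_mem_of_forall_mem
  intro v
  rw [Module.End.mul_apply, LinearMap.sub_apply, Module.End.one_apply]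
  exact map_mem_smul_top _ _ (hL u huL v)

end congr

variable {p : ℕ} {N : ℕ} [NeZero N] {S : Finset ℕ}
  {𝒪 : Type} [CommRing 𝒪] [IsDomain 𝒪] [IsDiscreteValuationRing 𝒪]
  [IsAdicComplete (IsLocalRing.maximalIdeal 𝒪) 𝒪]
  {θ : CuspForm.heckeAlgebra N 2 (↑S : Set ℕ) →+* IsLocalRing.ResidueField 𝒪}
  {T : Type} [CommRing T] [IsLocalRing T] [IsNoetherianRing T]
  [IsAdicComplete (IsLocalRing.maximalIdeal T) T] [Algebra 𝒪 T] [IsLocalHom (algebraMap 𝒪 T)]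
  [Module.Finite 𝒪 T] [Module.Free 𝒪 T]

omit [IsDomain 𝒪] [IsDiscreteValuationRing 𝒪] [IsAdicComplete (IsLocalRing.maximalIdeal 𝒪) 𝒪]
  [IsNoetherianRing T] [IsAdicComplete (IsLocalRing.maximalIdeal T) T] [Module.Finite 𝒪 T]
  [Module.Free 𝒪 T] in
/-- `p` lies in the maximal ideal of `T` -/
theorem natCast_mem_maximalIdeal [IsLocalRing 𝒪] (hp𝒪 : (p : 𝒪) ∈ IsLocalRing.maximalIdeal 𝒪) :
    (p : T) ∈ IsLocalRing.maximalIdeal T := by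
  have := map_nonunit (algebraMap 𝒪 T) (p : 𝒪) hp𝒪
  rwa [map_natCast] at this

/-- **S31, reduced** to weak Chebotarev and the faithful `p`-adic Eichler–Shimura package. -/
theorem unramified_of_pkg (hcheb : Cheb.WeakChebotarev) (hpkg : ESPkgFaith N p) (hp : p.Prime)
    (hp𝒪 : (p : 𝒪) ∈ IsLocalRing.maximalIdeal 𝒪) (hpS : p ∈ S)
    (hNS : ∀ q : ℕ, q.Prime → q ∣ N → q ∈ S)
    (H : CuspForm.HeckeGaloisRepDatum N (↑S : Set ℕ) 𝒪 θ T)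
    (q : ℕ) (hq : q.Prime) (hqS : q ∉ S) :
    H.ρ.IsUnramifiedAt q := by
  obtain ⟨J, _, _, _, hJ, hfaith⟩ := hpkg
  intro P hP σ hσ
  apply rho_eq_one_of_trace H.ρ H.residual_absIrr σ
  intro g
  -- the primes outside `S` are good
  have hgoodN : ∀ r : ℕ, r.Prime → r ∉ S → ¬ r ∣ N := fun r hr hrS h => hrS (hNS r hr h)
  have hgood : ∀ r : ℕ, r.Prime → r ∉ S → ¬ r ∣ N * p := by
    intro r hr hrS h
    rcases (Nat.Prime.dvd_mul hr).mp h with h | h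
    · exact hrS (hNS r hr h)
    · have : r = p := (Nat.prime_dvd_prime_iff_eq hr hp).mp h
      exact hrS (this ▸ hpS)
  -- it suffices to prove the congruence modulo every power of the maximal ideal
  suffices hkey : ∀ k : ℕ, LinearMap.trace T H.ρ.V (H.ρ.ρ (σ * g)) -
      LinearMap.trace T H.ρ.V (H.ρ.ρ g) ∈ IsLocalRing.maximalIdeal T ^ k by
    have hbot : ⨅ k, IsLocalRing.maximalIdeal T ^ k = ⊥ :=
      Ideal.iInf_pow_eq_bot_of_isLocalRing _ (Ideal.IsMaximal.ne_top inferInstance)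
    have hmem : LinearMap.trace T H.ρ.V (H.ρ.ρ (σ * g)) - LinearMap.trace T H.ρ.V (H.ρ.ρ g) ∈
        (⊥ : Ideal T) := by
      rw [← hbot]
      exact (Ideal.mem_iInf).mpr hkey
    exact sub_eq_zero.mp ((Ideal.mem_bot).mp hmem)
  intro k
  -- the variables outside `S`
  set Sg : Set Nat.Primes := outsideVars (↑S : Set ℕ) with hSgdef
  have hSg : Sg ⊆ goodPrimes N p := fun r hr => hgood r r.2 hr
  have hSg' : ∀ r ∈ Sg, ¬ (r : ℕ) ∣ N ∧ (r : ℕ) ∉ (↑S : Set ℕ) := fun r hr =>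
    ⟨hgoodN r r.2 hr, hr⟩
  obtain ⟨n, hn⟩ := hfaith Sg hSg k
  -- the fields
  obtain ⟨E, hEfin, hE⟩ := exists_common_field hJ n
  obtain ⟨L, hLfin, hL⟩ := H.ρ.isAdicContinuous k
  have hM0 : p ^ n ≠ 0 := pow_ne_zero n hp.ne_zero
  have : NeZero ((p ^ n : ℕ) : AlgebraicClosure ℚ) := ⟨Nat.cast_ne_zero.mpr hM0⟩
  obtain ⟨ζ, hζ⟩ := HasEnoughRootsOfUnity.exists_primitiveRoot (AlgebraicClosure ℚ) (p ^ n)
  have hζfin : FiniteDimensional ℚ (IntermediateField.adjoin ℚ {ζ}) :=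
    IntermediateField.adjoin.finiteDimensional ((hζ.isIntegral (Nat.pos_of_ne_zero hM0)).tower_top)
  obtain ⟨F, hFfin, hFgal, hEF, hLF, hζF⟩ :=
    exists_galois_hull E L (IntermediateField.adjoin ℚ {ζ})
  have hζF' : ζ ∈ F := hζF (IntermediateField.mem_adjoin_simple_self ℚ ζ)
  have hF : ∀ σ : GQ, (∀ a ∈ F, σ a = a) → ∀ x : J, p ^ n • x = 0 → σ • x = x :=
    fun σ h => hE σ fun a ha => h a (hEF ha)
  -- weak Chebotarev, twice
  obtain ⟨ℓ, A, τ, m, hℓ, hℓS, hA, hτ, hg⟩ := hcheb F S g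
  obtain ⟨ℓ', A', τ', m', hℓ', hℓ'S, hA', hτ', hg'⟩ := hcheb F S (σ * g)
  have hℓS' : ℓ ∉ (↑S : Set ℕ) := hℓS
  have hℓ'S' : ℓ' ∉ (↑S : Set ℕ) := hℓ'S
  -- the difference of the Lucas polynomials
  set D : HeckeAlg := lucasS (heckeGen ⟨ℓ, hℓ⟩) (ℓ : HeckeAlg) m -
      lucasS (heckeGen ⟨ℓ', hℓ'⟩) (ℓ' : HeckeAlg) m' with hD
  have hDsupp : D ∈ MvPolynomial.supported ℤ Sg := by
    refine sub_mem (lucasS_mem_subalgebra _ ?_ (natCast_mem _ ℓ) m)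
      (lucasS_mem_subalgebra _ ?_ (natCast_mem _ ℓ') m')
    · exact (MvPolynomial.X_mem_supported (R := ℤ)).mpr hℓS'
    · exact (MvPolynomial.X_mem_supported (R := ℤ)).mpr hℓ'S'
  have hDkill : ∀ x : J, p ^ n • x = 0 → D • x = 0 :=
    lucas_diff_kills hJ hp n hζ F hζF' hF hq (hgood q hq hqS) hP hσ g hℓ (hgood ℓ hℓ hℓS) hA hτ m hg
      hℓ' (hgood ℓ' hℓ' hℓ'S) hA' hτ' m' hg'
  obtain ⟨s, hs, hDs⟩ := hn D hDsupp hDkill
  -- the image of `D` in the Hecke algebra is divisible by `pᵏ`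
  have hev : evalS N (↑S : Set ℕ) D = (p : ℤ) ^ k • evalS N (↑S : Set ℕ) s := by
    apply Subtype.ext
    rw [coe_evalS_eq hSg' hDsupp, hDs]
    have := coe_evalS_eq hSg' hs
    rw [Subalgebra.coe_smul, Subalgebra.coe_smul, this]
  have hπmem : H.π (evalS N (↑S : Set ℕ) D) ∈ IsLocalRing.maximalIdeal T ^ k := by
    rw [hev, map_zsmul, zsmul_eq_mul, Int.cast_pow, Int.cast_natCast]
    exact Ideal.mul_mem_right _ _ (Ideal.pow_mem_pow (natCast_mem_maximalIdeal hp𝒪) k)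
  -- its value
  have hval : ∀ (r : ℕ) (hr : r.Prime) (hrS : r ∉ (↑S : Set ℕ)) (hrN : ¬ r ∣ N) (j : ℕ),
      H.π (evalS N (↑S : Set ℕ) (lucasS (heckeGen ⟨r, hr⟩) (r : HeckeAlg) j)) =
        lucasS (H.π (CuspForm.heckeAlgebra.T hr hrN hrS)) (r : T) j := by
    intro r hr hrS hrN j
    have := lucasS_map (H.π.comp (evalS N (↑S : Set ℕ)).toRingHom) (heckeGen ⟨r, hr⟩)
      (r : HeckeAlg) j
    simp only [RingHom.comp_apply, AlgHom.toRingHom_eq_coe, RingHom.coe_coe, map_natCast] at this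
    rw [this, evalS_heckeGen hr hrN hrS]
  have hπD : H.π (evalS N (↑S : Set ℕ) D) =
      lucasS (H.π (CuspForm.heckeAlgebra.T hℓ (hgoodN ℓ hℓ hℓS) hℓS')) (ℓ : T) m -
        lucasS (H.π (CuspForm.heckeAlgebra.T hℓ' (hgoodN ℓ' hℓ' hℓ'S) hℓ'S')) (ℓ' : T) m' := by
    rw [hD, map_sub, map_sub, hval ℓ hℓ hℓS' (hgoodN ℓ hℓ hℓS) m,
      hval ℓ' hℓ' hℓ'S' (hgoodN ℓ' hℓ' hℓ'S) m']
  -- the traces of the powers of the Frobenius elements
  have htr : LinearMap.trace T H.ρ.V (H.ρ.ρ (τ ^ m)) =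
      lucasS (H.π (CuspForm.heckeAlgebra.T hℓ (hgoodN ℓ hℓ hℓS) hℓS')) (ℓ : T) m := by
    rw [map_pow]
    exact trace_pow_eq_lucasS H.ρ.finrank_eq (H.ρ.ρ τ) _ _
      (H.charpoly_frob ℓ hℓ (hgoodN ℓ hℓ hℓS) hℓS' A hA τ hτ) m
  have htr' : LinearMap.trace T H.ρ.V (H.ρ.ρ (τ' ^ m')) =
      lucasS (H.π (CuspForm.heckeAlgebra.T hℓ' (hgoodN ℓ' hℓ' hℓ'S) hℓ'S')) (ℓ' : T) m' := by
    rw [map_pow]
    exact trace_pow_eq_lucasS H.ρ.finrank_eq (H.ρ.ρ τ') _ _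
      (H.charpoly_frob ℓ' hℓ' (hgoodN ℓ' hℓ' hℓ'S) hℓ'S' A' hA' τ' hτ') m'
  -- continuity
  have hc1 := trace_congr_of_agree H.ρ k L hL (τ ^ m) g fun a ha => hg a (hLF ha)
  have hc2 := trace_congr_of_agree H.ρ k L hL (τ' ^ m') (σ * g) fun a ha => hg' a (hLF ha)
  rw [htr] at hc1
  rw [htr'] at hc2
  rw [hπD] at hπmem
  have hfinal : LinearMap.trace T H.ρ.V (H.ρ.ρ (σ * g)) - LinearMap.trace T H.ρ.V (H.ρ.ρ g) =
      (LinearMap.trace T H.ρ.V (H.ρ.ρ (σ * g)) -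
          lucasS (H.π (CuspForm.heckeAlgebra.T hℓ' (hgoodN ℓ' hℓ' hℓ'S) hℓ'S')) (ℓ' : T) m') -
        (LinearMap.trace T H.ρ.V (H.ρ.ρ g) -
          lucasS (H.π (CuspForm.heckeAlgebra.T hℓ (hgoodN ℓ hℓ hℓS) hℓS')) (ℓ : T) m) -
        (lucasS (H.π (CuspForm.heckeAlgebra.T hℓ (hgoodN ℓ hℓ hℓS) hℓS')) (ℓ : T) m -
          lucasS (H.π (CuspForm.heckeAlgebra.T hℓ' (hgoodN ℓ' hℓ' hℓ'S) hℓ'S')) (ℓ' : T) m') := by
    ring
  rw [hfinal]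
  exact sub_mem (sub_mem hc2 hc1) hπmem

end Fermat.Agent.S31
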