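import Mathlib
import Fermat.Agent.S31.Plan

/-!
# The faithfulness clause `ESFaithOn` from a lattice

`esFaithOn_of_lattice`: let `Λ` be a finite free `ℤ`-module with an action `op` of the Hecke
polynomials (for instance `Λ = Hom_par(Γ₀(N), ℤ)`) such that

* (`hfaithful`) a Hecke polynomial in the variables `Sg` which kills `Λ` kills the cusp forms of
  weight 2 and level `N` (S21: the period map is injective and Hecke equivariant);
* (`hcomp`) a Hecke polynomial in the variables `Sg` which kills `J[pⁿ]` maps `Λ` into `pⁿ Λ`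
  (a Hecke equivariant injection `Λ / pⁿ Λ ↪ J[pⁿ]`).

Then `ESFaithOn N p Sg J` holds. The proof is the Artin–Rees lemma for the lattice of Hecke
operators inside `End Λ`.
-/

set_option autoImplicit false

namespace Fermat.Agent.S31

open ModularCurve

/-- **Artin–Rees for `p`-power multiples** in a finitely generated `ℤ`-module. -/
theorem exists_shift_of_submodule {M : Type*} [AddCommGroup M] [Module.Finite ℤ M]
    (B : Submodule ℤ M) (p : ℕ) :
    ∃ c : ℕ, ∀ k : ℕ, ∀ x ∈ B, (∃ y : M, x = p ^ (k + c) • y) → ∃ b ∈ B, x = p ^ k • b := by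
  obtain ⟨c, hc⟩ := Ideal.exists_pow_inf_eq_pow_smul (Ideal.span {(p : ℤ)}) B
  refine ⟨c, fun k x hx ⟨y, hy⟩ => ?_⟩
  have h1 : x ∈ (Ideal.span {(p : ℤ)}) ^ (k + c) • (⊤ : Submodule ℤ M) ⊓ B := by
    refine ⟨?_, hx⟩
    rw [hy, ← Nat.cast_smul_eq_nsmul ℤ]
    refine Submodule.smul_mem_smul ?_ Submodule.mem_top
    rw [Nat.cast_pow]
    exact Ideal.pow_mem_pow (Ideal.mem_span_singleton_self _) _
  rw [hc (k + c) (Nat.le_add_left c k), Nat.add_sub_cancel] at h1
  have h2 : x ∈ (Ideal.span {(p : ℤ)}) ^ k • B :=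
    Submodule.smul_mono le_rfl inf_le_right h1
  rw [Ideal.span_singleton_pow, Submodule.ideal_span_singleton_smul,
    Submodule.mem_smul_pointwise_iff_exists] at h2
  obtain ⟨b, hb, hbx⟩ := h2
  refine ⟨b, hb, ?_⟩
  rw [← hbx, ← Nat.cast_pow, Nat.cast_smul_eq_nsmul]

/-- **The faithfulness clause from a lattice.** -/
theorem esFaithOn_of_lattice {N p : ℕ} [NeZero N] (Sg : Set Nat.Primes) {J : Type}
    [AddCommGroup J] [Module HeckeAlg J]
    {Λ : Type*} [AddCommGroup Λ] [Module.Free ℤ Λ] [Module.Finite ℤ Λ]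
    (op : HeckeAlg →+* Module.End ℤ Λ)
    (hfaithful : ∀ t ∈ MvPolynomial.supported ℤ Sg, op t = 0 →
      CuspForm.heckeEvalForms N 2 t = 0)
    (hcomp : ∀ n : ℕ, ∀ t ∈ MvPolynomial.supported ℤ Sg,
      (∀ x : J, p ^ n • x = 0 → t • x = 0) → ∀ v : Λ, ∃ w : Λ, op t v = p ^ n • w) :
    ESFaithOn N p Sg J := by
  classical
  -- the lattice of Hecke operators in `End Λ`
  set B : Submodule ℤ (Module.End ℤ Λ) :=
    Submodule.map (op.toAddMonoidHom.toIntLinearMap)
      (Subalgebra.toSubmodule (MvPolynomial.supported ℤ Sg)) with hB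
  obtain ⟨c, hc⟩ := exists_shift_of_submodule B p
  intro k
  refine ⟨k + c, fun t ht hkill => ?_⟩
  have htB : op t ∈ B := ⟨t, ht, rfl⟩
  -- `op t` is divisible by `p ^ (k + c)` in `End Λ`
  have hdiv : ∃ y : Module.End ℤ Λ, op t = p ^ (k + c) • y := by
    let b := Module.Free.chooseBasis ℤ Λ
    choose w hw using fun i => hcomp (k + c) t ht hkill (b i)
    refine ⟨b.constr ℤ w, b.ext fun i => ?_⟩
    rw [LinearMap.smul_apply, Module.Basis.constr_basis, hw i]
  obtain ⟨y, ⟨s, hs, rfl⟩, hy⟩ := hc k (op t) htB hdiv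
  refine ⟨s, hs, ?_⟩
  have h0 : op (t - (p : ℤ) ^ k • s) = 0 := by
    rw [map_sub, map_zsmul, hy, sub_eq_zero, ← Nat.cast_pow, natCast_zsmul]
    rfl
  have hmem : t - (p : ℤ) ^ k • s ∈ MvPolynomial.supported ℤ Sg :=
    sub_mem ht (Subalgebra.smul_mem _ hs _)
  have h1 := hfaithful _ hmem h0
  rw [map_sub, map_zsmul, sub_eq_zero] at h1
  exact h1

/-- **The faithfulness clause from a lattice, word form.** The Hecke polynomials in the variables
`Sg` are the images `ab w` of the elements `w` of an additive group `W` (for instance the free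
algebra on `Sg`), which acts on the lattice `Λ` through `op` (no commutativity on `Λ` is needed). -/
theorem esFaithOn_of_words {N p : ℕ} [NeZero N] (Sg : Set Nat.Primes) {J : Type}
    [AddCommGroup J] [Module HeckeAlg J]
    {Λ : Type*} [AddCommGroup Λ] [Module.Free ℤ Λ] [Module.Finite ℤ Λ]
    {W : Type*} [AddCommGroup W] (ab : W →+ HeckeAlg) (op : W →+ Module.End ℤ Λ)
    (hab : ∀ t ∈ MvPolynomial.supported ℤ Sg, ∃ w, ab w = t)
    (hab' : ∀ w, ab w ∈ MvPolynomial.supported ℤ Sg)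
    (hfaithful : ∀ w, op w = 0 → CuspForm.heckeEvalForms N 2 (ab w) = 0)
    (hcomp : ∀ (n : ℕ) (w : W), (∀ x : J, p ^ n • x = 0 → ab w • x = 0) →
      ∀ v : Λ, ∃ v' : Λ, op w v = p ^ n • v') :
    ESFaithOn N p Sg J := by
  classical
  set B : Submodule ℤ (Module.End ℤ Λ) := LinearMap.range op.toIntLinearMap with hB
  obtain ⟨c, hc⟩ := exists_shift_of_submodule B p
  intro k
  refine ⟨k + c, fun t ht hkill => ?_⟩
  obtain ⟨w, rfl⟩ := hab t ht
  have htB : op w ∈ B := ⟨w, rfl⟩
  have hdiv : ∃ y : Module.End ℤ Λ, op w = p ^ (k + c) • y := by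
    let b := Module.Free.chooseBasis ℤ Λ
    choose u hu using fun i => hcomp (k + c) w hkill (b i)
    refine ⟨b.constr ℤ u, b.ext fun i => ?_⟩
    rw [LinearMap.smul_apply, Module.Basis.constr_basis, hu i]
  obtain ⟨y, ⟨w', rfl⟩, hy⟩ := hc k (op w) htB hdiv
  refine ⟨ab w', hab' w', ?_⟩
  have h0 : op (w - (p : ℤ) ^ k • w') = 0 := by
    rw [map_sub, map_zsmul, hy, sub_eq_zero, ← Nat.cast_pow, natCast_zsmul]
    rfl
  have h1 := hfaithful _ h0
  rw [map_sub, map_zsmul, map_sub, map_zsmul, sub_eq_zero] at h1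
  exact h1

end Fermat.Agent.S31
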