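import Mathlib
import Fermat.Agent.S31.Final
import Fermat.Agent.ES.FaithOfInputs

/-!
# S31 from the two remaining inputs of the Eichler–Shimura mountain

`s31_of_inputs` : S31 (frozen type) from `Fermat.Agent.INJ.StmtINJAll` (G2) and
`Fermat.Agent.ES.TorsionUnif N p` (G1), at the level `N` and the prime `p` of the datum.
-/

set_option autoImplicit false
variable {p : ℕ} {N : ℕ} [NeZero N] {S : Finset ℕ}
  {𝒪 : Type} [CommRing 𝒪] [IsDomain 𝒪] [IsDiscreteValuationRing 𝒪]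
  [IsAdicComplete (IsLocalRing.maximalIdeal 𝒪) 𝒪]
  {θ : CuspForm.heckeAlgebra N 2 (↑S : Set ℕ) →+* IsLocalRing.ResidueField 𝒪}
  {T : Type} [CommRing T] [IsLocalRing T] [IsNoetherianRing T]
  [IsAdicComplete (IsLocalRing.maximalIdeal T) T] [Algebra 𝒪 T] [IsLocalHom (algebraMap 𝒪 T)]
  [Module.Finite 𝒪 T] [Module.Free 𝒪 T]
open CuspForm CuspForm.HeckeGaloisRepDatum

namespace Fermat.Agent.S31

theorem s31_of_inputs (hINJ : Fermat.Agent.INJ.StmtINJAll)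
    (hUT : ∀ (N p : ℕ) [NeZero N], p.Prime → Fermat.Agent.ES.TorsionUnif N p)
    (hp : p.Prime)
    (hp𝒪 : (p : 𝒪) ∈ IsLocalRing.maximalIdeal 𝒪) (hpS : p ∈ S)
    (hNS : ∀ q : ℕ, q.Prime → q ∣ N → q ∈ S)
    (H : CuspForm.HeckeGaloisRepDatum N (↑S : Set ℕ) 𝒪 θ T)
    (q : ℕ) (hq : q.Prime) (hqS : q ∉ S) :
    H.ρ.IsUnramifiedAt q :=
  unramified_of_esPkgFaith (Fermat.Agent.ES.esPkgFaith_of_inputs hINJ hp (hUT N p hp))
    hp hp𝒪 hpS hNS H q hq hqS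

end Fermat.Agent.S31
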